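import Fermat.Agent.S37
import Fermat.Agent.S29.M1
import Fermat.Agent.S29.H571.HeckeGalois
import Fermat.Agent.S29.H451.SpecToRel

/-!
# Row S15, DESC leaf G3 (helper628): Kummer cocycles of `J₀(p)` are unramified outside `p r`

Blueprint `coord/S15-DESC-blueprint.md` v3, sec. 3.  Everything is formal from Tower A on main
(frozen `Fermat.Agent.S37.result` = Eichler–Shimura specialisation, with its two hypotheses
discharged by `S29.heckeOperatorsCommuteBar` and `S29.H571.smulCommClass_heckeModuleBar`).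

* `specExists N r` : `SpecializationExists N r (JZero N)`, unconditionally.
* `g3` : for a prime `ℓ ∤ N r`, a place `A` of `ℚ̄` over `ℓ`, `σ` in the inertia group of `A` and
  `y ∈ J₀(N)(ℚ̄)` with `σ (rⁿ y) = rⁿ y`:  `σ y = y`.
  (For `y ∈ Y`, `r y = x ∈ J₀(p)(ℚ)`, this says: the cocycle `c_y(s) = s y - y` vanishes on the
  inertia groups at all `ℓ ∤ p r`.)
* `g3_cocycle` : the same in cocycle form.
* `es_torsion` : the Eichler–Shimura relation `τ² - T_ℓ τ + ℓ = 0` on `J₀(N)[r^∞]` for a Frobenius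
  element `τ` at `ℓ ∤ N r`, with the Prelude operator `heckeOperatorBar N ℓ`.
* `unram_torsion` : inertia at `ℓ ∤ N r` acts trivially on `J₀(N)[r^∞]`.
-/

set_option autoImplicit false
set_option linter.style.haveILetI false

noncomputable section

namespace Fermat.Agent.S15.H628

open ModularCurve

/-- The conclusion of the frozen statement S37 for `J₀(N)`, with both hypotheses discharged. -/
theorem specExists (N r : ℕ) [NeZero N] :
    letI := heckeModuleBar N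
    haveI := Fermat.Agent.S29.H571.smulCommClass_heckeModuleBar N
    SpecializationExists (K := ℚ) (L := AlgebraicClosure ℚ) N r (JZero N) := by
  letI := heckeModuleBar N
  haveI := Fermat.Agent.S29.H571.smulCommClass_heckeModuleBar N
  exact Fermat.Agent.S37.result N r (Fermat.Agent.S29.heckeOperatorsCommuteBar N) inferInstance

/-- The Galois action commutes with multiplication by a natural number. -/
theorem gal_nsmul {N : ℕ} [NeZero N] (σ : AlgebraicClosure ℚ ≃ₐ[ℚ] AlgebraicClosure ℚ) (n : ℕ)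
    (x : JZero N) : σ • (n • x) = n • (σ • x) :=
  map_nsmul (DistribSMul.toAddMonoidHom (JZero N) σ) n x

/-- **G3.**  Inertia at `ℓ ∤ N r` fixes every `r`-power division point of a point it fixes. -/
theorem g3 (N r : ℕ) [NeZero N] {ℓ : ℕ} (hℓ : ℓ.Prime) (hℓNr : ¬ ℓ ∣ N * r)
    (A : ValuationSubring (AlgebraicClosure ℚ)) (hA : A.LiesOverPrime ℓ)
    {σ : AlgebraicClosure ℚ ≃ₐ[ℚ] AlgebraicClosure ℚ} (hσ : σ ∈ A.inertiaSubgroupIn ℚ)
    (y : JZero N) (n : ℕ) (hy : σ • (r ^ n • y) = r ^ n • y) : σ • y = y := by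
  letI := heckeModuleBar N
  haveI := Fermat.Agent.S29.H571.smulCommClass_heckeModuleBar N
  obtain ⟨J', _, _, sp, F, hsp, -⟩ := specExists N r ℓ hℓ hℓNr A hA
  have h1 : sp (σ • y - y) = 0 := by
    rw [map_sub, hsp.inertia_comm σ hσ y, sub_self]
  have h2 : r ^ n • (σ • y - y) = 0 := by
    have e : r ^ n • (σ • y - y) = r ^ n • (σ • y) - r ^ n • y := nsmul_sub _ _ _
    rw [e, ← gal_nsmul, hy, sub_self]
  exact sub_eq_zero.mp (hsp.injective_torsion _ ⟨n, h2⟩ h1)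

/-- **G3, cocycle form.**  If `r y` is Galois-fixed, the Kummer cocycle `s ↦ s y - y` vanishes on
the inertia group of every place over a prime `ℓ ∤ N r`. -/
theorem g3_cocycle (N r : ℕ) [NeZero N] {ℓ : ℕ} (hℓ : ℓ.Prime) (hℓNr : ¬ ℓ ∣ N * r)
    (A : ValuationSubring (AlgebraicClosure ℚ)) (hA : A.LiesOverPrime ℓ)
    (y : JZero N)
    (hy : ∀ σ : AlgebraicClosure ℚ ≃ₐ[ℚ] AlgebraicClosure ℚ, σ • (r • y) = r • y)
    (σ : AlgebraicClosure ℚ ≃ₐ[ℚ] AlgebraicClosure ℚ) (hσ : σ ∈ A.inertiaSubgroupIn ℚ) :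
    σ • y - y = 0 := by
  rw [sub_eq_zero]
  exact g3 N r hℓ hℓNr A hA hσ y 1 (by simpa using hy σ)

/-- Inertia at `ℓ ∤ N r` acts trivially on `J₀(N)[r^∞]`. -/
theorem unram_torsion (N r : ℕ) [NeZero N] {ℓ : ℕ} (hℓ : ℓ.Prime) (hℓNr : ¬ ℓ ∣ N * r)
    (A : ValuationSubring (AlgebraicClosure ℚ)) (hA : A.LiesOverPrime ℓ)
    {σ : AlgebraicClosure ℚ ≃ₐ[ℚ] AlgebraicClosure ℚ} (hσ : σ ∈ A.inertiaSubgroupIn ℚ)
    (x : JZero N) (n : ℕ) (hx : r ^ n • x = 0) : σ • x = x :=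
  g3 N r hℓ hℓNr A hA hσ x n (by
    rw [hx]
    exact map_zero (DistribSMul.toAddMonoidHom (JZero N) σ))

/-- **Eichler–Shimura on torsion.**  For a Frobenius element `τ` at a place over `ℓ ∤ N r` and
`x ∈ J₀(N)[r^∞]`:  `τ² x - T_ℓ (τ x) + ℓ x = 0`. -/
theorem es_torsion (N r : ℕ) [NeZero N] {ℓ : ℕ} (hℓ : ℓ.Prime) (hℓNr : ¬ ℓ ∣ N * r)
    (A : ValuationSubring (AlgebraicClosure ℚ)) (hA : A.LiesOverPrime ℓ)
    (τ : AlgebraicClosure ℚ ≃ₐ[ℚ] AlgebraicClosure ℚ) (hτ : A.IsFrobeniusAt τ ℓ)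
    (x : JZero N) (n : ℕ) (hx : r ^ n • x = 0) :
    τ • τ • x - heckeOperatorBar N ⟨ℓ, hℓ⟩ (τ • x) + ℓ • x = 0 := by
  letI := heckeModuleBar N
  haveI := Fermat.Agent.S29.H571.smulCommClass_heckeModuleBar N
  have h := Fermat.Agent.S29.H451.frobeniusQuadratic_of_specializationExists N r (JZero N)
    (specExists N r) ℓ hℓ hℓNr A hA τ hτ x ⟨n, hx⟩
  have e := heckeModuleBar_heckeGen_smul (Fermat.Agent.S29.heckeOperatorsCommuteBar N)
    ⟨ℓ, hℓ⟩ (τ • x)
  rw [← e]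
  exact h

end Fermat.Agent.S15.H628

end
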