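import Fermat.Agent.S15.H62.FrobNilpotent
import Fermat.Agent.S29.H571.FiniteLevel
import Fermat.Agent.S29.H571.HeckeGalois
import Fermat.Agent.S29.H872.Cyclo
import Fermat.Agent.Lib.Cheb.FrobeniusDivision
import Fermat.Agent.A3.H319.Fin
import Fermat.Agent.S15.H628.G3

/-!
# Row S15, DESC leaf FLAG-glue (helper628)

Blueprint `coord/S15-DESC-blueprint.md` v3, sec. 1 (FLAG).
-/

set_option autoImplicit false
set_option linter.style.haveILetI false
set_option linter.unusedSectionVars false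

noncomputable section

namespace Fermat.Agent.S15.H628

open ModularCurve
open Fermat.Agent.Lib.Cheb.Spec (GQ Qb)

section Level

variable {N : ℕ} [NeZero N]

/-- A finite set of torsion points of `J₀(N)` is defined over a finite extension of `ℚ`, which
can be taken to contain any given finite-dimensional field. -/
theorem exists_level_of_finite (X : AddSubgroup (JZero N)) [Finite X] {m : ℕ} (hm : m ≠ 0)
    (hXm : ∀ x ∈ X, m • x = 0) (R : IntermediateField ℚ Qb) [FiniteDimensional ℚ R] :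
    ∃ E : IntermediateField ℚ Qb, FiniteDimensional ℚ E ∧ R ≤ E ∧
      ∀ σ τ : GQ, (∀ a ∈ E, σ a = τ a) → ∀ x ∈ X, σ • x = τ • x := by
  classical
  have h1 : ∀ x : X, ∃ L : IntermediateField ℚ Qb, FiniteDimensional ℚ L ∧
      ∀ σ : GQ, (∀ a ∈ L, σ a = a) → σ • (x : JZero N) = x := by
    intro x
    have hx : ((m : ℤ)) • (x : JZero N) = 0 := by
      rw [natCast_zsmul]
      exact hXm x x.2
    exact Fermat.Agent.S29.H571.exists_finiteLevel_of_zsmul_eq_zero
      (modularFunctionFieldFull N) (x : JZero N) (by exact_mod_cast hm) hx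
  choose L hLfin hL using h1
  haveI : ∀ x, FiniteDimensional ℚ (L x) := hLfin
  refine ⟨(⨆ x, L x) ⊔ R, ?_, le_sup_right, ?_⟩
  · haveI : FiniteDimensional ℚ (⨆ x, L x : IntermediateField ℚ Qb) :=
      IntermediateField.finiteDimensional_iSup_of_finite
    exact IntermediateField.finiteDimensional_sup _ _
  · intro σ τ h x hx
    have h2 : ∀ a ∈ L ⟨x, hx⟩, (τ⁻¹ * σ) a = a := by
      intro a ha
      have ha' : a ∈ (⨆ x, L x) ⊔ R :=
        (le_sup_left : (⨆ x, L x) ≤ (⨆ x, L x) ⊔ R) (le_iSup L ⟨x, hx⟩ ha)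
      show τ⁻¹ (σ a) = a
      rw [h a ha']
      exact τ.symm_apply_apply a
    have h3 := hL ⟨x, hx⟩ (τ⁻¹ * σ) h2
    have h4 : σ • x = τ • ((τ⁻¹ * σ) • x) := by
      rw [← mul_smul, mul_inv_cancel_left]
    rw [h4]
    exact congrArg (τ • ·) h3

end Level

section Abstract

variable {N : ℕ} [NeZero N] {r : ℕ} [Fact r.Prime]
variable (X : AddSubgroup (JZero N)) [hXr : Fact (∀ x ∈ X, r • x = 0)]
  (hXG : ∀ σ : GQ, ∀ x ∈ X, σ • x ∈ X)

/-- `X ⊆ J[r]` as an `𝔽_r`-vector space. -/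
instance modX : Module (ZMod r) X :=
  AddCommGroup.zmodModule (n := r) fun x => Subtype.ext (by simpa using hXr.out x x.2)

/-- The action of `σ` on `X`. -/
def galHomX (σ : GQ) : X →+ X where
  toFun x := ⟨σ • (x : JZero N), hXG σ x x.2⟩
  map_zero' := Subtype.ext (smul_zero σ)
  map_add' a b := Subtype.ext (smul_add σ (a : JZero N) (b : JZero N))

omit hXr in
@[simp] theorem coe_galHomX (σ : GQ) (x : X) :
    ((galHomX X hXG σ x : X) : JZero N) = σ • (x : JZero N) := rfl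

/-- The Galois representation on `X`. -/
def repX : Representation (ZMod r) GQ X where
  toFun := fun σ => (galHomX X hXG σ).toZModLinearMap r
  map_one' := by
    refine LinearMap.ext fun x => Subtype.ext ?_
    simp
  map_mul' := fun σ τ => by
    refine LinearMap.ext fun x => Subtype.ext ?_
    simp [mul_smul]

theorem coe_repX (σ : GQ) (x : X) :
    ((repX (r := r) X hXG σ x : X) : JZero N) = σ • (x : JZero N) := rfl

/-- Restriction to `X` of an additive endomorphism of `J₀(N)` preserving `X`. -/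
def resX (D : Module.End ℤ (JZero N)) (hD : ∀ x ∈ X, D x ∈ X) : X →+ X where
  toFun x := ⟨D (x : JZero N), hD x x.2⟩
  map_zero' := Subtype.ext (map_zero D)
  map_add' a b := Subtype.ext (map_add D (a : JZero N) (b : JZero N))

/-- Restriction to `X`, as an `𝔽_r`-linear endomorphism. -/
def endX (D : Module.End ℤ (JZero N)) (hD : ∀ x ∈ X, D x ∈ X) : Module.End (ZMod r) X :=
  (resX X D hD).toZModLinearMap r

theorem coe_endX (D : Module.End ℤ (JZero N)) (hD : ∀ x ∈ X, D x ∈ X) (x : X) :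
    ((endX (r := r) X D hD x : X) : JZero N) = D (x : JZero N) := rfl

/-- Scalars of `𝔽_r` given by natural numbers act on `X` as in `J₀(N)`. -/
theorem coe_natCast_smul (k : ℕ) (x : X) :
    (((k : ZMod r) • x : X) : JZero N) = k • (x : JZero N) := by
  rw [Nat.cast_smul_eq_nsmul (ZMod r) k x]
  rfl

/-- Coordinates of `D - (1 + k)` on `X`. -/
theorem coe_sub_one_add_apply (D : Module.End (ZMod r) X) (k : ℕ) (x : X) :
    (((D - (1 + algebraMap (ZMod r) (Module.End (ZMod r) X) (k : ZMod r))) x : X) : JZero N)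
      = ((D x : X) : JZero N) - ((x : JZero N) + k • (x : JZero N)) := by
  show ((D x - (x + (k : ZMod r) • x) : X) : JZero N) = _
  rw [AddSubgroup.coe_sub, AddSubgroup.coe_add, coe_natCast_smul]

/-- Coordinates of `ρ ρ - T ρ + k` on `X`. -/
theorem coe_quadratic_apply (R T : Module.End (ZMod r) X) (k : ℕ) (x : X) :
    (((R * R - T * R + algebraMap (ZMod r) (Module.End (ZMod r) X) (k : ZMod r)) x : X) : JZero N)
      = ((R (R x) : X) : JZero N) - ((T (R x) : X) : JZero N) + k • (x : JZero N) := by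
  show ((R (R x) - T (R x) + (k : ZMod r) • x : X) : JZero N) = _
  rw [AddSubgroup.coe_add, AddSubgroup.coe_sub, coe_natCast_smul]

/-- Pointwise nilpotency on a finite group is nilpotency. -/
theorem isNilpotent_of_pointwise [Finite X]
    (D : Module.End (ZMod r) X)
    (D' : Module.End ℤ (JZero N)) (hDD' : ∀ x : X, ((D x : X) : JZero N) = D' (x : JZero N))
    (hnil : ∀ x ∈ X, ∃ n : ℕ, (D' ^ n) x = 0) :
    IsNilpotent D := by
  have hpow : ∀ (n : ℕ) (x : X), (((D ^ n) x : X) : JZero N) = (D' ^ n) (x : JZero N) := by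
    intro n
    induction n with
    | zero => intro x; simp
    | succ n ih =>
      intro x
      rw [pow_succ, Module.End.mul_apply, ih, hDD', pow_succ, Module.End.mul_apply]
  choose n hn using fun x : X => hnil x x.2
  obtain ⟨M, hM⟩ := (Set.finite_range n).bddAbove
  refine ⟨M, LinearMap.ext fun x => Subtype.ext ?_⟩
  have hle : n x ≤ M := hM ⟨x, rfl⟩
  rw [hpow, LinearMap.zero_apply, AddSubgroup.coe_zero]
  obtain ⟨k, rfl⟩ := Nat.exists_eq_add_of_le hle
  rw [add_comm, pow_add, Module.End.mul_apply, hn x, map_zero]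

open Classical in
/-- The Hecke operators on `X` (zero at the bad indices). -/
def heckeX (S : Finset ℕ)
    (hXT : ∀ ℓ : Nat.Primes, (ℓ : ℕ) ∉ S → ∀ x ∈ X, heckeOperatorBar N ℓ x ∈ X) (ℓ : ℕ) :
    Module.End (ZMod r) X :=
  if h : ℓ.Prime ∧ ℓ ∉ S then
    endX X (heckeOperatorBar N ⟨ℓ, h.1⟩) (hXT ⟨ℓ, h.1⟩ h.2)
  else 0

theorem coe_heckeX (S : Finset ℕ)
    (hXT : ∀ ℓ : Nat.Primes, (ℓ : ℕ) ∉ S → ∀ x ∈ X, heckeOperatorBar N ℓ x ∈ X) {ℓ : ℕ}
    (hℓ : ℓ.Prime) (hℓS : ℓ ∉ S) (x : X) :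
    ((heckeX (r := r) X S hXT ℓ x : X) : JZero N) = heckeOperatorBar N ⟨ℓ, hℓ⟩ (x : JZero N) := by
  unfold heckeX
  rw [dif_pos (And.intro hℓ hℓS)]
  rfl

attribute [irreducible] heckeX

end Abstract

section Flag

variable {N : ℕ} [NeZero N] {r : ℕ} [Fact r.Prime]

/-- The finite extension `ℚ(μ_r)` of `ℚ` inside `ℚ̄`. -/
def muField (r : ℕ) : IntermediateField ℚ Qb :=
  IntermediateField.adjoin ℚ {t : Qb | t ^ r = 1}

theorem finiteDimensional_muField : FiniteDimensional ℚ (muField r) := by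
  have hr : 0 < r := (Fact.out : r.Prime).pos
  have hfin : {t : Qb | t ^ r = 1}.Finite := by
    have h := (Polynomial.X ^ r - 1 : Polynomial Qb).rootSet_finite Qb
    refine h.subset fun t ht => ?_
    rw [Polynomial.mem_rootSet]
    refine ⟨Polynomial.X_pow_sub_C_ne_zero hr 1, ?_⟩
    have ht' : t ^ r = 1 := ht
    simp [ht']
  haveI : Finite {t : Qb | t ^ r = 1} := hfin.to_subtype
  refine IntermediateField.finiteDimensional_adjoin fun t ht => ?_
  exact (AlgebraicClosure.isAlgebraic ℚ).isAlgebraic t |>.isIntegral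

/-- The mod `r` cyclotomic character factors through `ℚ(μ_r)`. -/
theorem cycloChar_eq_of_muField (σ τ : GQ) (h : ∀ a ∈ muField r, σ a = τ a) :
    ExtCitation.cycloChar r σ = ExtCitation.cycloChar r τ := by
  have h1 : ExtCitation.cycloChar r (τ⁻¹ * σ) = 1 := by
    apply Fermat.Agent.S29.H872.cycloChar_eq_one_of_fixes_roots
    intro t ht
    have ht' : t ∈ muField r := IntermediateField.subset_adjoin ℚ _ ht
    show τ⁻¹ (σ t) = t
    rw [h t ht']
    exact τ.symm_apply_apply t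
  rw [map_mul, map_inv, inv_mul_eq_one] at h1
  exact h1.symm

open Fermat.Agent.Lib.Cheb.Spec (FrobeniusDivisionStatement) in
/-- **FLAG, abstract form.**  A finite subgroup `X ⊆ J₀(N)[r]`, stable under Galois and under the
Hecke operators `T_ℓ` (`ℓ ∉ S`), on which all `T_ℓ - (1 + ℓ)` (`ℓ ∉ S`) are pointwise nilpotent
and the Eichler–Shimura relations hold, has a Galois-stable full flag with graded pieces of type
`𝟙` or `χ` (mod `r` cyclotomic character). -/
theorem hasFlagFrom_of_eisenstein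
    (X : AddSubgroup (JZero N)) [Finite X] [hXr : Fact (∀ x ∈ X, r • x = 0)]
    (hXG : ∀ σ : GQ, ∀ x ∈ X, σ • x ∈ X)
    (S : Finset ℕ) (hrS : r ∈ S)
    (hXT : ∀ ℓ : Nat.Primes, (ℓ : ℕ) ∉ S → ∀ x ∈ X, heckeOperatorBar N ℓ x ∈ X)
    (hnil : ∀ ℓ : Nat.Primes, (ℓ : ℕ) ∉ S → ∀ x ∈ X, ∃ n : ℕ,
      ((heckeOperatorBar N ℓ - ((1 + (ℓ : ℕ) : ℕ) : Module.End ℤ (JZero N))) ^ n) x = 0)
    (hES : ∀ ℓ : Nat.Primes, (ℓ : ℕ) ∉ S → ∀ A : ValuationSubring Qb, A.LiesOverPrime ℓ →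
      ∀ τ : GQ, A.IsFrobeniusAt τ ℓ → ∀ x ∈ X,
        τ • τ • x - heckeOperatorBar N ℓ (τ • x) + (ℓ : ℕ) • x = 0)
    (hcheb : FrobeniusDivisionStatement) :
    H62.HasFlagFrom (repX (r := r) X hXG) (ExtCitation.cycloChar r) ⊥ := by
  have hr : r.Prime := Fact.out
  haveI : FiniteDimensional ℚ (muField r) := finiteDimensional_muField
  obtain ⟨E, hEfin, hRE, hE⟩ := exists_level_of_finite X hr.ne_zero hXr.out (muField r)
  have hT : ∀ (ℓ : ℕ) (hℓ : ℓ.Prime) (hℓS : ℓ ∉ S) (x : X),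
      ((heckeX (r := r) X S hXT ℓ x : X) : JZero N)
        = heckeOperatorBar N ⟨ℓ, hℓ⟩ (x : JZero N) :=
    fun ℓ hℓ hℓS x => coe_heckeX X S hXT hℓ hℓS x
  refine H62.exists_flag_of_frobenius (repX X hXG) (ExtCitation.cycloChar r) E hEfin
    ?_ ?_ S (heckeX X S hXT) ?_ ?_ ?_ ?_ hcheb
  · -- `ρ` factors through `E`
    intro σ τ h
    refine LinearMap.ext fun x => Subtype.ext ?_
    exact hE σ τ h x x.2
  · -- `χ` factors through `E`
    intro σ τ h
    exact cycloChar_eq_of_muField σ τ fun a ha => h a (hRE ha)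
  · -- `T_ℓ` commutes with Galois
    intro ℓ hℓ hℓS σ
    refine LinearMap.ext fun x => Subtype.ext ?_
    have e1 : ((heckeX (r := r) X S hXT ℓ (repX (r := r) X hXG σ x) : X) : JZero N)
        = heckeOperatorBar N ⟨ℓ, hℓ⟩ (σ • (x : JZero N)) := hT ℓ hℓ hℓS _
    have e2 : ((repX (r := r) X hXG σ (heckeX (r := r) X S hXT ℓ x) : X) : JZero N)
        = σ • heckeOperatorBar N ⟨ℓ, hℓ⟩ (x : JZero N) :=
      congrArg (σ • ·) (hT ℓ hℓ hℓS x)
    exact e1.trans
      ((Fermat.Agent.S29.H571.heckeOperatorBar_smul N ⟨ℓ, hℓ⟩ σ x).trans e2.symm)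
  · -- nilpotency
    intro ℓ hℓ hℓS
    refine isNilpotent_of_pointwise X _
      (heckeOperatorBar N ⟨ℓ, hℓ⟩ - ((1 + ℓ : ℕ) : Module.End ℤ (JZero N))) ?_
      (hnil ⟨ℓ, hℓ⟩ hℓS)
    intro x
    rw [coe_sub_one_add_apply, LinearMap.sub_apply, Module.End.natCast_apply,
      add_smul, one_smul]
    exact congrArg (· - ((x : JZero N) + ℓ • (x : JZero N))) (hT ℓ hℓ hℓS x)
  · -- Eichler–Shimura
    intro ℓ hℓ hℓS A hA τ hτ
    refine LinearMap.ext fun x => Subtype.ext ?_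
    have key := hES ⟨ℓ, hℓ⟩ hℓS A hA τ hτ x x.2
    have e1 : ((heckeX (r := r) X S hXT ℓ (repX (r := r) X hXG τ x) : X) : JZero N)
        = heckeOperatorBar N ⟨ℓ, hℓ⟩ (τ • (x : JZero N)) := hT ℓ hℓ hℓS _
    rw [coe_quadratic_apply]
    exact (congrArg (fun z => τ • τ • (x : JZero N) - z + ℓ • (x : JZero N)) e1).trans key
  · -- `χ(Frob_ℓ) = ℓ`
    intro ℓ hℓ hℓS A hA τ hτ
    have hℓr : ℓ ≠ r := fun h => hℓS (h ▸ hrS)
    exact Fermat.Agent.S29.H872.cycloChar_frobenius r hℓ hℓr A hA τ hτ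

/-- Over `𝔽_r`, the span of a vector is the subgroup it generates. -/
theorem span_singleton_toAddSubgroup (X : AddSubgroup (JZero N))
    [hXr : Fact (∀ x ∈ X, r • x = 0)] (u : X) :
    (Submodule.span (ZMod r) {u}).toAddSubgroup = AddSubgroup.zmultiples u := by
  ext y
  rw [Submodule.mem_toAddSubgroup, Submodule.mem_span_singleton, AddSubgroup.mem_zmultiples_iff]
  constructor
  · rintro ⟨a, rfl⟩
    refine ⟨(a.val : ℤ), ?_⟩
    rw [natCast_zsmul, ← Nat.cast_smul_eq_nsmul (ZMod r), ZMod.natCast_zmod_val]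
  · rintro ⟨k, rfl⟩
    exact ⟨(k : ZMod r), Int.cast_smul_eq_zsmul (ZMod r) k u⟩

open Fermat.Agent.Lib.Cheb.Spec (FrobeniusDivisionStatement) in
/-- **FLAG, concrete form.**  Same hypotheses; the flag is given by subgroups `F i` of `J₀(N)`,
`F (i+1) = F i + ℤ u_i`, and `σ u_i ≡ ψ_i(σ) u_i` modulo `F i` with `ψ_i = 1` (`ε i = false`) or
`ψ_i =` the mod `r` cyclotomic character (`ε i = true`; `cycloExp r σ` is its representative in
`ℕ`). -/
theorem exists_flag_addSubgroup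
    (X : AddSubgroup (JZero N)) [Finite X] (hXr : ∀ x ∈ X, r • x = 0)
    (hXG : ∀ σ : GQ, ∀ x ∈ X, σ • x ∈ X)
    (S : Finset ℕ) (hrS : r ∈ S)
    (hXT : ∀ ℓ : Nat.Primes, (ℓ : ℕ) ∉ S → ∀ x ∈ X, heckeOperatorBar N ℓ x ∈ X)
    (hnil : ∀ ℓ : Nat.Primes, (ℓ : ℕ) ∉ S → ∀ x ∈ X, ∃ n : ℕ,
      ((heckeOperatorBar N ℓ - ((1 + (ℓ : ℕ) : ℕ) : Module.End ℤ (JZero N))) ^ n) x = 0)
    (hES : ∀ ℓ : Nat.Primes, (ℓ : ℕ) ∉ S → ∀ A : ValuationSubring Qb, A.LiesOverPrime ℓ →
      ∀ τ : GQ, A.IsFrobeniusAt τ ℓ → ∀ x ∈ X,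
        τ • τ • x - heckeOperatorBar N ℓ (τ • x) + (ℓ : ℕ) • x = 0)
    (hcheb : FrobeniusDivisionStatement) :
    ∃ (n : ℕ) (F : ℕ → AddSubgroup (JZero N)) (u : ℕ → JZero N) (ε : ℕ → Bool),
      F 0 = ⊥ ∧ F n = X ∧
      (∀ i < n, F (i + 1) = F i ⊔ AddSubgroup.zmultiples (u i)) ∧
      (∀ i < n, u i ∉ F i) ∧ (∀ i < n, u i ∈ X) ∧
      (∀ i < n, ∀ σ : GQ,
        σ • u i - (if ε i then ExtCitation.cycloExp r σ else 1) • u i ∈ F i) := by
  haveI : Fact (∀ x ∈ X, r • x = 0) := ⟨hXr⟩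
  obtain ⟨n, F, u, ε, h0, hn, hstep, hu, hact⟩ :=
    hasFlagFrom_of_eisenstein (r := r) X hXG S hrS hXT hnil hES hcheb
  refine ⟨n, fun i => (F i).toAddSubgroup.map X.subtype, fun i => (u i : JZero N), ε,
    ?_, ?_, ?_, ?_, ?_, ?_⟩
  · show (F 0).toAddSubgroup.map X.subtype = ⊥
    rw [h0, Submodule.bot_toAddSubgroup, AddSubgroup.map_bot]
  · show (F n).toAddSubgroup.map X.subtype = X
    rw [hn, Submodule.top_toAddSubgroup, ← AddMonoidHom.range_eq_map, AddSubgroup.range_subtype]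
  · intro i hi
    show (F (i + 1)).toAddSubgroup.map X.subtype
      = (F i).toAddSubgroup.map X.subtype ⊔ AddSubgroup.zmultiples (u i : JZero N)
    rw [hstep i hi, Submodule.sup_toAddSubgroup, AddSubgroup.map_sup,
      span_singleton_toAddSubgroup, AddMonoidHom.map_zmultiples]
    rfl
  · intro i hi hmem
    obtain ⟨y, hy, hyu⟩ := AddSubgroup.mem_map.mp hmem
    have : y = u i := Subtype.ext hyu
    exact hu i hi (this ▸ hy)
  · intro i _
    exact (u i).2
  · intro i hi σ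
    refine AddSubgroup.mem_map.mpr ⟨_, hact i hi σ, ?_⟩
    show ((repX (r := r) X hXG σ (u i) : X) : JZero N)
      - (((if ε i then ((ExtCitation.cycloChar r σ : (ZMod r)ˣ) : ZMod r) else 1) • u i : X) :
          JZero N) = _
    rw [coe_repX]
    congr 1
    cases ε i with
    | false =>
      simp
    | true =>
      simp only [if_true]
      rw [ExtCitation.coe_cycloChar, coe_natCast_smul]

end Flag

/-! ## The Eisenstein part of `J₀(N)[r]` and its flag -/

section Eis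

variable (N : ℕ) [NeZero N]

/-- The operator `T_ℓ - (1 + ℓ)` on `J₀(N)(ℚ̄)`. -/
def eisD (ℓ : Nat.Primes) : Module.End ℤ (JZero N) :=
  heckeOperatorBar N ℓ - ((1 + (ℓ : ℕ) : ℕ) : Module.End ℤ (JZero N))

theorem eisD_smul (ℓ : Nat.Primes) (σ : GQ) (x : JZero N) :
    eisD N ℓ (σ • x) = σ • eisD N ℓ x := by
  unfold eisD
  rw [LinearMap.sub_apply, LinearMap.sub_apply, Module.End.natCast_apply,
    Module.End.natCast_apply, Fermat.Agent.S29.H571.heckeOperatorBar_smul, ← gal_nsmul]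
  exact (map_sub (DistribSMul.toAddMonoidHom (JZero N) σ) _ _).symm

theorem eisD_pow_smul (ℓ : Nat.Primes) (σ : GQ) (n : ℕ) (x : JZero N) :
    (eisD N ℓ ^ n) (σ • x) = σ • (eisD N ℓ ^ n) x := by
  induction n generalizing x with
  | zero => simp
  | succ n ih =>
    rw [pow_succ, Module.End.mul_apply, Module.End.mul_apply, eisD_smul, ih]

theorem commute_eisD_hecke (ℓ q : Nat.Primes) :
    Commute (eisD N ℓ) (heckeOperatorBar N q) := by
  unfold eisD
  have h : Commute (heckeOperatorBar N ℓ) (heckeOperatorBar N q) :=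
    Fermat.Agent.S29.heckeOperatorsCommuteBar N ℓ q
  exact h.sub_left (Nat.cast_commute _ _)

/-- **The Eisenstein part** of `J₀(N)[r]` away from `S`: the `r`-torsion points killed by a power
of `T_ℓ - (1 + ℓ)` for every prime `ℓ ∉ S`. -/
def eisPart (S : Set ℕ) (r : ℕ) : AddSubgroup (JZero N) where
  carrier := {x | r • x = 0 ∧ ∀ ℓ : Nat.Primes, (ℓ : ℕ) ∉ S → ∃ n : ℕ, (eisD N ℓ ^ n) x = 0}
  zero_mem' := ⟨smul_zero r, fun ℓ _ => ⟨0, by simp⟩⟩
  add_mem' := by
    rintro a b ⟨ha, ha'⟩ ⟨hb, hb'⟩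
    refine ⟨by rw [nsmul_add, ha, hb, add_zero], fun ℓ hℓ => ?_⟩
    obtain ⟨n, hn⟩ := ha' ℓ hℓ
    obtain ⟨m, hm⟩ := hb' ℓ hℓ
    refine ⟨n + m, ?_⟩
    rw [map_add]
    have h1 : (eisD N ℓ ^ (n + m)) a = 0 := by
      rw [add_comm, pow_add, Module.End.mul_apply, hn, map_zero]
    have h2 : (eisD N ℓ ^ (n + m)) b = 0 := by
      rw [pow_add, Module.End.mul_apply, hm, map_zero]
    rw [h1, h2, add_zero]
  neg_mem' := by
    rintro a ⟨ha, ha'⟩
    refine ⟨by rw [neg_nsmul, ha, neg_zero], fun ℓ hℓ => ?_⟩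
    obtain ⟨n, hn⟩ := ha' ℓ hℓ
    exact ⟨n, by rw [map_neg, hn, neg_zero]⟩

variable {N}

theorem mem_eisPart {S : Set ℕ} {r : ℕ} {x : JZero N} :
    x ∈ eisPart N S r ↔
      r • x = 0 ∧ ∀ ℓ : Nat.Primes, (ℓ : ℕ) ∉ S → ∃ n : ℕ, (eisD N ℓ ^ n) x = 0 := Iff.rfl

theorem nsmul_eq_zero_of_mem_eisPart {S : Set ℕ} {r : ℕ} {x : JZero N}
    (hx : x ∈ eisPart N S r) : r • x = 0 := hx.1

/-- The Eisenstein part is Galois-stable. -/
theorem gal_mem_eisPart {S : Set ℕ} {r : ℕ} (σ : GQ) {x : JZero N}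
    (hx : x ∈ eisPart N S r) : σ • x ∈ eisPart N S r := by
  refine ⟨?_, fun ℓ hℓ => ?_⟩
  · rw [← gal_nsmul, hx.1]
    exact map_zero (DistribSMul.toAddMonoidHom (JZero N) σ)
  · obtain ⟨n, hn⟩ := hx.2 ℓ hℓ
    refine ⟨n, ?_⟩
    rw [eisD_pow_smul, hn]
    exact map_zero (DistribSMul.toAddMonoidHom (JZero N) σ)

/-- The Eisenstein part is stable under all Hecke operators. -/
theorem hecke_mem_eisPart {S : Set ℕ} {r : ℕ} (q : Nat.Primes) {x : JZero N}
    (hx : x ∈ eisPart N S r) : heckeOperatorBar N q x ∈ eisPart N S r := by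
  refine ⟨?_, fun ℓ hℓ => ?_⟩
  · rw [← map_nsmul, hx.1, map_zero]
  · obtain ⟨n, hn⟩ := hx.2 ℓ hℓ
    refine ⟨n, ?_⟩
    have hc : Commute (eisD N ℓ ^ n) (heckeOperatorBar N q) :=
      (commute_eisD_hecke N ℓ q).pow_left n
    have := congrArg (fun f : Module.End ℤ (JZero N) => f x) hc.eq
    simp only [Module.End.mul_apply] at this
    rw [this, hn, map_zero]

/-- The Eisenstein part is finite. -/
theorem finite_eisPart (S : Set ℕ) (r : ℕ) [Fact r.Prime] : Finite (eisPart N S r) := by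
  haveI : Finite (Fermat.Agent.S19.Tors N r 1) := Fermat.Agent.A3.H319.finStatement N r 1
  let f : eisPart N S r → Fermat.Agent.S19.Tors N r 1 := fun x =>
    ⟨(x : JZero N), by
      rw [Submodule.mem_torsionBy_iff, pow_one, natCast_zsmul]
      exact x.2.1⟩
  refine Finite.of_injective f fun a b h => Subtype.ext ?_
  have h' : ((f a : Fermat.Agent.S19.Tors N r 1) : JZero N) = (f b : Fermat.Agent.S19.Tors N r 1) :=
    congrArg Subtype.val h
  exact h'

/-- **FLAG for the Eisenstein part.**  For a finite set `S` of primes, the Eisenstein part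
`X = eisPart N S r` of `J₀(N)[r]` has a full flag `0 = F 0 < F 1 < ⋯ < F n = X` of subgroups with
`F (i+1) = F i + ℤ u_i` such that every `σ ∈ Gal(ℚ̄/ℚ)` satisfies `σ u_i ≡ ψ_i(σ) u_i` modulo `F i`,
where `ψ_i = 1` or `ψ_i` is the mod `r` cyclotomic character.  Unconditional. -/
theorem flag_eisPart (S : Finset ℕ) (r : ℕ) [Fact r.Prime] :
    ∃ (n : ℕ) (F : ℕ → AddSubgroup (JZero N)) (u : ℕ → JZero N) (ε : ℕ → Bool),
      F 0 = ⊥ ∧ F n = eisPart N (S : Set ℕ) r ∧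
      (∀ i < n, F (i + 1) = F i ⊔ AddSubgroup.zmultiples (u i)) ∧
      (∀ i < n, u i ∉ F i) ∧ (∀ i < n, u i ∈ eisPart N (S : Set ℕ) r) ∧
      (∀ i < n, ∀ σ : GQ,
        σ • u i - (if ε i then ExtCitation.cycloExp r σ else 1) • u i ∈ F i) := by
  classical
  haveI := finite_eisPart (N := N) (S : Set ℕ) r
  have hN : N ≠ 0 := NeZero.ne N
  have hr : r.Prime := Fact.out
  -- the exceptional set: `S`, the primes dividing `N`, and `r`
  set S' : Finset ℕ := S ∪ N.primeFactors ∪ {r} with hS'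
  have hsub : ∀ ℓ : ℕ, ℓ ∉ S' → ℓ ∉ S ∧ ℓ ∉ N.primeFactors ∧ ℓ ≠ r := by
    intro ℓ hℓ
    simp only [hS', Finset.mem_union, Finset.mem_singleton, not_or] at hℓ
    exact ⟨hℓ.1.1, hℓ.1.2, hℓ.2⟩
  refine exists_flag_addSubgroup (r := r) (eisPart N (S : Set ℕ) r)
    (fun x hx => hx.1) (fun σ x hx => gal_mem_eisPart σ hx) S'
    (by simp [hS']) (fun ℓ _ x hx => hecke_mem_eisPart ℓ hx)
    (fun ℓ hℓ x hx => hx.2 ℓ (by exact_mod_cast (hsub ℓ hℓ).1)) ?_
    Fermat.Agent.Lib.Cheb.frobeniusDivision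
  intro ℓ hℓ A hA τ hτ x hx
  obtain ⟨-, h2, h3⟩ := hsub ℓ hℓ
  have hℓN : ¬ (ℓ : ℕ) ∣ N := fun hd => h2 (Nat.mem_primeFactors.mpr ⟨ℓ.2, hd, hN⟩)
  have hℓNr : ¬ (ℓ : ℕ) ∣ N * r := by
    intro hd
    rcases (Nat.Prime.dvd_mul ℓ.2).1 hd with h | h
    · exact hℓN h
    · exact h3 ((Nat.prime_dvd_prime_iff_eq ℓ.2 hr).1 h)
  exact es_torsion N r ℓ.2 hℓNr A hA τ hτ x 1 (by rw [pow_one]; exact hx.1)

/-- In a flag as in `flag_eisPart`, every term is Galois-stable. -/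
theorem flag_stable {n : ℕ} {F : ℕ → AddSubgroup (JZero N)} {u : ℕ → JZero N} {c : ℕ → GQ → ℕ}
    (h0 : F 0 = ⊥) (hstep : ∀ i < n, F (i + 1) = F i ⊔ AddSubgroup.zmultiples (u i))
    (hact : ∀ i < n, ∀ σ : GQ, σ • u i - c i σ • u i ∈ F i) :
    ∀ i ≤ n, ∀ σ : GQ, ∀ x ∈ F i, σ • x ∈ F i := by
  intro i
  induction i with
  | zero =>
    intro _ σ x hx
    rw [h0, AddSubgroup.mem_bot] at hx
    rw [hx, h0, AddSubgroup.mem_bot]
    exact map_zero (DistribSMul.toAddMonoidHom (JZero N) σ)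
  | succ i ih =>
    intro hi σ x hx
    have hi' : i < n := hi
    rw [hstep i hi'] at hx ⊢
    obtain ⟨f, hf, z, hz, rfl⟩ := AddSubgroup.mem_sup.mp hx
    obtain ⟨k, rfl⟩ := AddSubgroup.mem_zmultiples_iff.mp hz
    have e1 : σ • (f + k • u i) = σ • f + k • (σ • u i) := by
      have h1 := map_add (DistribSMul.toAddMonoidHom (JZero N) σ) f (k • u i)
      have h2 := map_zsmul (DistribSMul.toAddMonoidHom (JZero N) σ) k (u i)
      exact h1.trans (congrArg (σ • f + ·) h2)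
    have e2 : σ • u i = (σ • u i - c i σ • u i) + c i σ • u i := by abel
    rw [e1, e2, zsmul_add]
    refine add_mem (AddSubgroup.mem_sup_left (ih hi'.le σ f hf)) (add_mem ?_ ?_)
    · exact AddSubgroup.mem_sup_left (zsmul_mem (hact i hi' σ) k)
    · exact AddSubgroup.mem_sup_right
        (zsmul_mem (nsmul_mem (AddSubgroup.mem_zmultiples (u i)) _) k)

/-- In a flag as in `flag_eisPart`, the terms increase. -/
theorem flag_mono {n : ℕ} {F : ℕ → AddSubgroup (JZero N)} {u : ℕ → JZero N}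
    (hstep : ∀ i < n, F (i + 1) = F i ⊔ AddSubgroup.zmultiples (u i)) :
    ∀ i j, i ≤ j → j ≤ n → F i ≤ F j := by
  intro i j hij
  induction j, hij using Nat.le_induction with
  | base => intro _; exact le_rfl
  | succ j hj ih =>
    intro hjn
    have hj' : j < n := hjn
    exact (ih hj'.le).trans (by rw [hstep j hj']; exact le_sup_left)

/-- **FLAG for the Eisenstein part, full form**: `flag_eisPart` together with the formal
consequences (terms increasing, Galois-stable, steps of order `r`). -/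
theorem flag_eisPart_full (S : Finset ℕ) (r : ℕ) [Fact r.Prime] :
    ∃ (n : ℕ) (F : ℕ → AddSubgroup (JZero N)) (u : ℕ → JZero N) (ε : ℕ → Bool),
      F 0 = ⊥ ∧ F n = eisPart N (S : Set ℕ) r ∧
      (∀ i < n, F (i + 1) = F i ⊔ AddSubgroup.zmultiples (u i)) ∧
      (∀ i < n, u i ∉ F i) ∧ (∀ i < n, u i ∈ eisPart N (S : Set ℕ) r) ∧
      (∀ i < n, ∀ σ : GQ,
        σ • u i - (if ε i then ExtCitation.cycloExp r σ else 1) • u i ∈ F i) ∧
      (∀ i j, i ≤ j → j ≤ n → F i ≤ F j) ∧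
      (∀ i ≤ n, F i ≤ eisPart N (S : Set ℕ) r) ∧
      (∀ i ≤ n, ∀ σ : GQ, ∀ x ∈ F i, σ • x ∈ F i) ∧
      (∀ i < n, r • u i = 0) := by
  obtain ⟨n, F, u, ε, h0, hn, hstep, hu, huX, hact⟩ := flag_eisPart (N := N) S r
  refine ⟨n, F, u, ε, h0, hn, hstep, hu, huX, hact, flag_mono hstep, ?_, ?_, ?_⟩
  · intro i hi
    rw [← hn]
    exact flag_mono hstep i n hi le_rfl
  · exact flag_stable (c := fun i σ => if ε i then ExtCitation.cycloExp r σ else 1) h0 hstep hact
  · intro i hi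
    exact (huX i hi).1

end Eis

end Fermat.Agent.S15.H628

end
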