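import Fermat.Agent.S15.H975.DescSpec
import Fermat.Agent.S15.H628.Flag

/-!
# Row S15, DESC leaf FLAG (helper628): `flagStatement : H975.FlagStatement` (VERBATIM)

Adapter from `H628.flag_eisPart_full` (unconditional flag of the Eisenstein part of `J₀(N)[r]`,
`Fermat/Agent/S15/H628/Flag.lean`) to the frozen skeleton shape of `H975/DescSpec.lean`.
-/

set_option autoImplicit false

noncomputable section

namespace Fermat.Agent.S15.H628

open ModularCurve
open Fermat.Agent.Lib.Cheb.Spec (GQ Qb)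

section Group

variable {G : Type*} [AddCommGroup G]

/-- A step `F < F + ℤ u` with `u ∉ F`, `r u ∈ F`, `r` prime, has index `r`. -/
theorem relIndex_sup_zmultiples (F : AddSubgroup G) (u : G) (r : ℕ) [Fact r.Prime]
    (hu : u ∉ F) (hru : r • u ∈ F) :
    F.relIndex (F ⊔ AddSubgroup.zmultiples u) = r := by
  set K : AddSubgroup G := F ⊔ AddSubgroup.zmultiples u with hK
  have huK : u ∈ K := AddSubgroup.mem_sup_right (AddSubgroup.mem_zmultiples u)
  set H : AddSubgroup K := F.addSubgroupOf K with hH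
  let ū : K ⧸ H := QuotientAddGroup.mk ⟨u, huK⟩
  have h1 : r • ū = 0 := by
    show r • (QuotientAddGroup.mk (⟨u, huK⟩ : K) : K ⧸ H) = 0
    rw [← QuotientAddGroup.mk_nsmul, QuotientAddGroup.eq_zero_iff]
    exact AddSubgroup.mem_addSubgroupOf.mpr hru
  have h2 : ū ≠ 0 := by
    intro h
    have := (QuotientAddGroup.eq_zero_iff (⟨u, huK⟩ : K)).mp h
    exact hu (AddSubgroup.mem_addSubgroupOf.mp this)
  have h3 : ∀ q : K ⧸ H, q ∈ AddSubgroup.zmultiples ū := by
    intro q
    obtain ⟨⟨x, hx⟩, rfl⟩ := QuotientAddGroup.mk_surjective q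
    obtain ⟨f, hf, z, hz, rfl⟩ := AddSubgroup.mem_sup.mp hx
    obtain ⟨k, rfl⟩ := AddSubgroup.mem_zmultiples_iff.mp hz
    refine AddSubgroup.mem_zmultiples_iff.mpr ⟨k, ?_⟩
    show k • (QuotientAddGroup.mk (⟨u, huK⟩ : K) : K ⧸ H) = _
    rw [← QuotientAddGroup.mk_zsmul, QuotientAddGroup.eq]
    refine AddSubgroup.mem_addSubgroupOf.mpr ?_
    have e : ((-(k • (⟨u, huK⟩ : K)) + ⟨f + k • u, hx⟩ : K) : G) = f := by
      simp
    rw [e]
    exact hf
  have h4 : addOrderOf ū = r := addOrderOf_eq_prime h1 h2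
  have h5 : addOrderOf ū = Nat.card (K ⧸ H) := addOrderOf_eq_card_of_forall_mem_zmultiples h3
  show H.index = r
  rw [AddSubgroup.index_eq_card, ← h5, h4]

end Group

section Adapter

variable (p : ℕ) [NeZero p]

theorem eta_eq_eisD (ℓ : Nat.Primes) : Fermat.Agent.S15.H975.eta p ℓ = eisD p ℓ := by
  unfold Fermat.Agent.S15.H975.eta eisD
  congr 1

theorem eis_eq_eisPart (S : Finset ℕ) (r : ℕ) :
    Fermat.Agent.S15.H975.eis p (S : Set ℕ) r
      = eisPart p ((insert p S : Finset ℕ) : Set ℕ) r := by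
  ext w
  constructor
  · rintro ⟨h1, h2⟩
    refine ⟨h1, fun ℓ hℓ => ?_⟩
    have hℓ' : (ℓ : ℕ) ≠ p ∧ (ℓ : ℕ) ∉ S := by
      simpa [Finset.mem_insert, not_or] using hℓ
    obtain ⟨k, hk⟩ := h2 ℓ hℓ'.1 (by exact_mod_cast hℓ'.2)
    exact ⟨k, by rw [← eta_eq_eisD]; exact hk⟩
  · rintro ⟨h1, h2⟩
    refine ⟨h1, fun ℓ hℓp hℓS => ?_⟩
    have hℓ' : (ℓ : ℕ) ∉ ((insert p S : Finset ℕ) : Set ℕ) := by
      have hℓS' : (ℓ : ℕ) ∉ S := by exact_mod_cast hℓS
      simp [hℓp, hℓS']
    obtain ⟨k, hk⟩ := h2 ℓ hℓ'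
    exact ⟨k, by rw [eta_eq_eisD]; exact hk⟩

end Adapter

/-- One step of the flag acts through `c` on the whole step. -/
theorem step_act {N : ℕ} [NeZero N] {F' : AddSubgroup (JZero N)} {u : JZero N} (σ : GQ) (c : ℕ)
    (hstab : ∀ x ∈ F', σ • x ∈ F') (hu : σ • u - c • u ∈ F') :
    ∀ f ∈ F' ⊔ AddSubgroup.zmultiples u, σ • f - c • f ∈ F' := by
  intro f hf
  obtain ⟨f', hf', z, hz, rfl⟩ := AddSubgroup.mem_sup.mp hf
  obtain ⟨k, rfl⟩ := AddSubgroup.mem_zmultiples_iff.mp hz
  have e1 : σ • (f' + k • u) = σ • f' + k • (σ • u) := by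
    have h1 := map_add (DistribSMul.toAddMonoidHom (JZero N) σ) f' (k • u)
    have h2 := map_zsmul (DistribSMul.toAddMonoidHom (JZero N) σ) k u
    exact h1.trans (congrArg (σ • f' + ·) h2)
  have e2 : σ • (f' + k • u) - c • (f' + k • u)
      = (σ • f' - c • f') + k • (σ • u - c • u) := by
    rw [e1, nsmul_add, zsmul_sub, ← natCast_zsmul (k • u) c, ← natCast_zsmul u c,
      smul_comm (c : ℤ) k u]
    abel
  rw [e2]
  exact add_mem (sub_mem (hstab f' hf') (nsmul_mem hf' c)) (zsmul_mem hu k)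

/-- **FLAG** (frozen skeleton leaf, verbatim): the Eisenstein part `W_E` of `J₀(p)[r]` has a full
Galois flag with pieces of type `1` or `ω`.  Unconditional. -/
theorem flagStatement : Fermat.Agent.S15.H975.FlagStatement := by
  intro p _ _ S r hr _
  have : Fact r.Prime := ⟨hr⟩
  obtain ⟨n, F, u, ε, h0, hn, hstep, hu, huX, hact, hmono, -, hstab, hru⟩ :=
    flag_eisPart_full (N := p) (insert p S) r
  refine ⟨n, F, h0, by rw [hn, eis_eq_eisPart], fun i hi => ?_⟩
  have hFi : ∀ σ : GQ, ∀ x ∈ F i, σ • x ∈ F i := hstab i hi.le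
  refine ⟨hmono i (i + 1) (Nat.le_succ i) hi, hFi, hstab (i + 1) hi, ?_, ?_⟩
  · rw [hstep i hi]
    exact relIndex_sup_zmultiples (F i) (u i) r (hu i hi)
      (by rw [hru i hi]; exact (F i).zero_mem)
  · rw [hstep i hi]
    cases hε : ε i with
    | false =>
      left
      intro σ f hf
      have h1 : σ • u i - 1 • u i ∈ F i := by
        have := hact i hi σ
        rwa [hε] at this
      have h2 := step_act σ 1 (hFi σ) h1 f hf
      rwa [one_nsmul] at h2
    | true =>
      right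
      obtain ⟨ζ, hζ⟩ := HasEnoughRootsOfUnity.exists_primitiveRoot Qb r
      refine ⟨ζ, hζ, fun σ k hk f hf => ?_⟩
      -- `σ ζ = ζ ^ cycloExp`, hence `k ≡ cycloExp (mod r)`
      have hζu : IsUnit ζ := hζ.isUnit hr.ne_zero
      obtain ⟨t, rfl⟩ := hζu
      have ht : t ∈ rootsOfUnity r Qb := by
        rw [mem_rootsOfUnity]
        exact Units.ext (by simpa using hζ.pow_eq_one)
      have hspec := Fermat.Agent.S55.Bridge.cycloChar_spec r σ ht
      have hc : ((ExtCitation.cycloChar r σ : (ZMod r)ˣ) : ZMod r).val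
          = ExtCitation.cycloExp r σ := ExtCitation.val_cycloChar r σ
      rw [hc, hk] at hspec
      have hmod : k ≡ ExtCitation.cycloExp r σ [MOD r] := by
        have hspec' : t ^ k = t ^ ExtCitation.cycloExp r σ :=
          Units.ext (by rw [Units.val_pow_eq_pow_val, Units.val_pow_eq_pow_val]; exact hspec)
        have h := pow_eq_pow_iff_modEq.mp hspec'
        have ho : orderOf t = r := by rw [← orderOf_units, ← hζ.eq_orderOf]
        rwa [ho] at h
      have h1 : σ • u i - ExtCitation.cycloExp r σ • u i ∈ F i := by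
        have := hact i hi σ
        rwa [hε] at this
      have h2 : k • u i = ExtCitation.cycloExp r σ • u i := by
        have hr0 : r • u i = 0 := hru i hi
        have e : ∀ m : ℕ, m • u i = (m % r) • u i := by
          intro m
          conv_lhs => rw [← Nat.div_add_mod m r, add_nsmul, mul_nsmul, hr0, nsmul_zero, zero_add]
        rw [e k, e (ExtCitation.cycloExp r σ), hmod]
      have h3 : σ • u i - k • u i ∈ F i := by rw [h2]; exact h1
      exact step_act σ k (hFi σ) h3 f hf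

end Fermat.Agent.S15.H628

end
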